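/-
MAZ programme (S15), brick F-D1 (uniformisation-lite), sub-brick U6a (helper91):
**every short Weierstrass equation `y² = x³ + A x + B` (nonzero discriminant) is the equation
of a lattice**: there are `τ ∈ ℍ` and `u ≠ 0` with `g₂(u·(ℤτ+ℤ)) = -4A`, `g₃(u·(ℤτ+ℤ)) = -4B`, and
`j(τ) = 1728·4A³/(4A³+27B²)`.

Route: `τ` from the surjectivity of `j` (`X0.jFun_surjective`); the scaling from the pure algebra
lemma `X0.JInjective.exists_scaling` applied to `(3g₂, 27g₃)`, using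
`g₂(τ,1) = 120 ζ(4) E₄`, `g₃(τ,1) = 280 ζ(6) E₆` and `ζ(4) = π⁴/90`, `ζ(6) = π⁶/945`.
-/
import Fermat.Agent.X0.LatticeEis
import Fermat.Agent.X0.JInjective
import Fermat.Agent.X0.JBasic

set_option autoImplicit false

open UpperHalfPlane ModularForm EisensteinSeries
open Fermat.Agent.X0 Fermat.Agent.X0.LatticeEis
open scoped Real Nat

noncomputable section

namespace Fermat.Agent.MAZ.Unif91

/-- `ζ(6) = π⁶/945`. -/
theorem riemannZeta_six : riemannZeta 6 = (π : ℂ) ^ 6 / 945 := by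
  have h := riemannZeta_two_mul_nat (k := 3) (by norm_num)
  have hb : bernoulli 6 = 1 / 42 := by decide +kernel
  have e : (2 : ℂ) * ((3 : ℕ) : ℂ) = 6 := by norm_num
  rw [e] at h
  rw [h]
  norm_num [hb, Nat.factorial]
  ring

/-- `3 g₂(τ,1) = 4π⁴ E₄(τ)`. -/
theorem three_g₂_pairOfUHP (τ : ℍ) : 3 * (pairOfUHP τ).g₂ = 4 * (π : ℂ) ^ 4 * E₄ τ := by
  rw [g₂_pairOfUHP, riemannZeta_four]
  ring

/-- `27 g₃(τ,1) = 8π⁶ E₆(τ)`. -/
theorem twentyseven_g₃_pairOfUHP (τ : ℍ) :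
    27 * (pairOfUHP τ).g₃ = 8 * (π : ℂ) ^ 6 * E₆ τ := by
  rw [g₃_pairOfUHP, riemannZeta_six]
  ring

/-- **Existence of the lattice of a short Weierstrass equation**, with its `j`-invariant. -/
theorem exists_tau_scale (A B : ℂ) (hΔ : 4 * A ^ 3 + 27 * B ^ 2 ≠ 0) :
    ∃ (τ : ℍ) (u : ℂ) (hu : u ≠ 0),
      (scalePair u hu (pairOfUHP τ)).g₂ = -4 * A ∧
      (scalePair u hu (pairOfUHP τ)).g₃ = -4 * B ∧
      jFun τ = 1728 * (4 * A ^ 3) / (4 * A ^ 3 + 27 * B ^ 2) := by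
  obtain ⟨τ, hτ⟩ := jFun_surjective (1728 * (4 * A ^ 3) / (4 * A ^ 3 + 27 * B ^ 2))
  have hπ : (π : ℂ) ≠ 0 := Complex.ofReal_ne_zero.mpr Real.pi_ne_zero
  have hdisc := discriminant_eq_E₄_cube_sub_E₆_sq τ
  have hdne := discriminant_ne_zero τ
  have hE : E₄ τ ^ 3 - E₆ τ ^ 2 ≠ 0 := by
    intro h0
    apply hdne
    rw [hdisc, h0, zero_div]
  -- the relation between `(A, B)` and `(E₄ τ, E₆ τ)`
  have hrel : 27 * B ^ 2 * E₄ τ ^ 3 = -(4 * A ^ 3 * E₆ τ ^ 2) := by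
    have h := hτ
    unfold jFun at h
    rw [hdisc] at h
    rw [div_div_eq_mul_div, div_eq_div_iff hE hΔ] at h
    linear_combination (1 / 1728 : ℂ) * h
  -- scaling
  have hΔ₁ : (-12 * A) ^ 3 - (-108 * B) ^ 2 ≠ 0 := by
    intro h0
    apply hΔ
    linear_combination (-1 / 432 : ℂ) * h0
  have hΔ₂ : (4 * (π : ℂ) ^ 4 * E₄ τ) ^ 3 - (8 * (π : ℂ) ^ 6 * E₆ τ) ^ 2 ≠ 0 := by
    have : (4 * (π : ℂ) ^ 4 * E₄ τ) ^ 3 - (8 * (π : ℂ) ^ 6 * E₆ τ) ^ 2 =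
        64 * (π : ℂ) ^ 12 * (E₄ τ ^ 3 - E₆ τ ^ 2) := by ring
    rw [this]
    exact mul_ne_zero (mul_ne_zero (by norm_num) (pow_ne_zero _ hπ)) hE
  have hcross : (-12 * A) ^ 3 * (8 * (π : ℂ) ^ 6 * E₆ τ) ^ 2 =
      (4 * (π : ℂ) ^ 4 * E₄ τ) ^ 3 * (-108 * B) ^ 2 := by
    linear_combination (-27648 * (π : ℂ) ^ 12) * hrel
  obtain ⟨c, hc0, hc4, hc6⟩ := JInjective.exists_scaling hΔ₁ hΔ₂ hcross
  refine ⟨τ, c, hc0, ?_, ?_, hτ⟩
  · rw [g₂_scalePair]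
    have h3 := three_g₂_pairOfUHP τ
    have : (3 : ℂ) * ((c ^ 4)⁻¹ * (pairOfUHP τ).g₂) = 3 * (-4 * A) := by
      rw [← mul_assoc, mul_comm (3 : ℂ), mul_assoc, h3, hc4]
      ring
    exact mul_left_cancel₀ (by norm_num) this
  · rw [g₃_scalePair]
    have h27 := twentyseven_g₃_pairOfUHP τ
    have : (27 : ℂ) * ((c ^ 6)⁻¹ * (pairOfUHP τ).g₃) = 27 * (-4 * B) := by
      rw [← mul_assoc, mul_comm (27 : ℂ), mul_assoc, h27, hc6]
      ring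
    exact mul_left_cancel₀ (by norm_num) this

end Fermat.Agent.MAZ.Unif91
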