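/-
MAZ programme (S15), moduli side, brick EFV (helper91): **analytic Vélu formula for `g₂`**.
For lattices `L ⊂ L' = L + ℤ t₀`, `t₀ ∉ L`, `p t₀ ∈ L` (`p` prime):

* `G_sup` : `G_n(L') = Σ_{k < p} Σ_{ω ∈ L} (ω + k t₀)⁻ⁿ` (`n > 2`; coset decomposition);
* `sumInvPow_four` : `Σ_{ω ∈ L} (ω - z)⁻⁴ = ℘(z)² - g₂/12` (`= ℘''(z)/6`);
* `g₂_sup` : `g₂(L') = (6 - 5p) g₂(L) + 60 Σ_{k=1}^{p-1} ℘_L(k t₀)²`.
-/
import Fermat.Agent.MAZ.Unif18.WPBasic

set_option autoImplicit false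

open scoped PeriodPair

noncomputable section

namespace Fermat.Agent.MAZ.Unif91

variable (L : PeriodPair)

/-- `Σ_{ω ∈ L} (ω - z)⁻⁴ = ℘(z)² - g₂/12` off the lattice. -/
theorem sumInvPow_four {z : ℂ} (hz : z ∉ L.lattice) :
    L.sumInvPow z 4 = ℘[L] z ^ 2 - L.g₂ / 12 := by
  have h1 : deriv ℘'[L] z = 6 * L.sumInvPow z 4 := by
    have := L.deriv_derivWeierstrassPExcept_self z
    rwa [L.derivWeierstrassPExcept_of_notMem z hz] at this
  have h2 : deriv ℘'[L] z = 6 * ℘[L] z ^ 2 - L.g₂ / 2 :=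
    (Fermat.Agent.MAZ.Unif18.hasDerivAt_dwp L hz).deriv
  have h3 : 6 * L.sumInvPow z 4 = 6 * ℘[L] z ^ 2 - L.g₂ / 2 := h1.symm.trans h2
  linear_combination (1 / 6 : ℂ) * h3

section Coset

variable {L} {p : ℕ} (hp : p.Prime) {t₀ : ℂ} (ht : t₀ ∉ L.lattice)
  (hpt : (p : ℂ) * t₀ ∈ L.lattice)

include hp ht hpt in
/-- an integer multiple `m t₀` with `p ∤ m` is not in `L`. -/
theorem intCast_mul_notMem {m : ℤ} (hm : ¬ (p : ℤ) ∣ m) : (m : ℂ) * t₀ ∉ L.lattice := by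
  intro hmem
  have hpZ : Prime (p : ℤ) := Nat.prime_iff_prime_int.mp hp
  have hc : IsCoprime m (p : ℤ) := by
    rw [isCoprime_comm]
    exact (Prime.coprime_iff_not_dvd hpZ).mpr hm
  obtain ⟨a, b, hab⟩ := hc
  apply ht
  have e : t₀ = a • ((m : ℂ) * t₀) + b • ((p : ℂ) * t₀) := by
    have habC : (a : ℂ) * m + b * p = 1 := by exact_mod_cast hab
    simp only [zsmul_eq_mul]
    linear_combination (-t₀) * habC
  rw [e]
  exact add_mem (Submodule.smul_mem _ _ hmem) (Submodule.smul_mem _ _ hpt)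

include hp ht hpt in
/-- `k t₀ ∉ L` for `0 < k < p`. -/
theorem natCast_mul_notMem {k : ℕ} (hk0 : 0 < k) (hkp : k < p) : (k : ℂ) * t₀ ∉ L.lattice := by
  have := intCast_mul_notMem hp ht hpt (m := (k : ℤ)) (by
    intro hd
    have := Int.natCast_dvd_natCast.mp hd
    exact absurd (Nat.le_of_dvd hk0 this) (not_le.mpr hkp))
  simpa using this

variable (L' : PeriodPair) (hL' : L'.lattice = L.lattice ⊔ Submodule.span ℤ {t₀})

include hL' in
theorem add_mul_mem_sup (l : L.lattice) (k : ℤ) : (l : ℂ) + k * t₀ ∈ L'.lattice := by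
  rw [hL']
  refine Submodule.add_mem_sup l.2 ?_
  rw [Submodule.mem_span_singleton]
  exact ⟨k, by simp⟩

/-- the coset map `(k, ω) ↦ ω + k t₀`. -/
def cosetMap (k : Fin p × L.lattice) : L'.lattice :=
  ⟨(k.2 : ℂ) + ((k.1 : ℕ) : ℤ) * t₀, add_mul_mem_sup L' hL' k.2 _⟩

include hp ht hpt in
theorem cosetMap_bijective : Function.Bijective (cosetMap (p := p) L' hL') := by
  constructor
  · rintro ⟨k, l⟩ ⟨k', l'⟩ h
    have h' : (l : ℂ) + ((k : ℕ) : ℤ) * t₀ = (l' : ℂ) + ((k' : ℕ) : ℤ) * t₀ :=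
      congrArg Subtype.val h
    have hmem : ((((k : ℕ) : ℤ) - ((k' : ℕ) : ℤ) : ℤ) : ℂ) * t₀ ∈ L.lattice := by
      have : ((((k : ℕ) : ℤ) - ((k' : ℕ) : ℤ) : ℤ) : ℂ) * t₀ = (l' : ℂ) - l := by
        push_cast
        linear_combination h'
      rw [this]
      exact sub_mem l'.2 l.2
    have hdvd : (p : ℤ) ∣ ((k : ℕ) : ℤ) - ((k' : ℕ) : ℤ) := by
      by_contra hnd
      exact intCast_mul_notMem hp ht hpt hnd hmem
    have hkk : (k : ℕ) = (k' : ℕ) := by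
      have h1 := k.2
      have h2 := k'.2
      obtain ⟨c, hc⟩ := hdvd
      have hc0 : c = 0 := by
        by_contra hne
        have hp0 : (0 : ℤ) < p := by exact_mod_cast hp.pos
        rcases lt_or_gt_of_ne hne with hneg | hpos
        · have : (p : ℤ) * c ≤ -(p : ℤ) := by nlinarith
          omega
        · have : (p : ℤ) ≤ (p : ℤ) * c := by nlinarith
          omega
      rw [hc0, mul_zero] at hc
      omega
    have hk : k = k' := Fin.ext hkk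
    subst hk
    have : (l : ℂ) = l' := by
      have := h'
      simpa using this
    exact Prod.ext rfl (Subtype.ext this)
  · rintro ⟨x, hx⟩
    rw [hL', Submodule.mem_sup] at hx
    obtain ⟨y, hy, w, hw, rfl⟩ := hx
    rw [Submodule.mem_span_singleton] at hw
    obtain ⟨m, rfl⟩ := hw
    have hp0 : (p : ℤ) ≠ 0 := by exact_mod_cast hp.ne_zero
    have hmod_nonneg : 0 ≤ m % (p : ℤ) := Int.emod_nonneg m hp0
    have hmod_lt : m % (p : ℤ) < p := Int.emod_lt_of_pos m (by exact_mod_cast hp.pos)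
    have hk : (m % (p : ℤ)).toNat < p := by
      have := Int.toNat_of_nonneg hmod_nonneg
      omega
    refine ⟨(⟨(m % (p : ℤ)).toNat, hk⟩,
      ⟨y + (m / (p : ℤ)) • ((p : ℂ) * t₀),
        add_mem hy (Submodule.smul_mem _ _ hpt)⟩), ?_⟩
    apply Subtype.ext
    simp only [cosetMap, zsmul_eq_mul]
    rw [Int.toNat_of_nonneg hmod_nonneg]
    have hm : m = (p : ℤ) * (m / (p : ℤ)) + m % (p : ℤ) := (Int.mul_ediv_add_emod m p).symm
    have hmC : (m : ℂ) = (p : ℂ) * ((m / (p : ℤ) : ℤ) : ℂ) + ((m % (p : ℤ) : ℤ) : ℂ) := by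
      exact_mod_cast hm
    linear_combination (-t₀) * hmC

/-- the coset decomposition as an equivalence. -/
def cosetEquiv : Fin p × L.lattice ≃ L'.lattice :=
  Equiv.ofBijective _ (cosetMap_bijective hp ht hpt L' hL')

include hp ht hpt hL' in
/-- **Coset decomposition of the Eisenstein sums**: `G_n(L') = Σ_{k<p} Σ_{ω∈L} (ω + k t₀)⁻ⁿ`. -/
theorem G_sup {n : ℕ} (hn : 2 < n) :
    L'.G n = ∑ k ∈ Finset.range p, ∑' l : L.lattice, (((l : ℂ) + (k : ℂ) * t₀) ^ n)⁻¹ := by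
  have hsum : Summable fun l : L'.lattice => ((l : ℂ) ^ n)⁻¹ := by
    have := (L'.hasSum_sumInvPow 0 hn).summable
    simpa using this
  have hsum' : Summable fun x : Fin p × L.lattice =>
      (((cosetEquiv hp ht hpt L' hL' x : L'.lattice) : ℂ) ^ n)⁻¹ :=
    (cosetEquiv hp ht hpt L' hL').summable_iff.mpr hsum
  rw [PeriodPair.G, ← (cosetEquiv hp ht hpt L' hL').tsum_eq, hsum'.tsum_prod, tsum_fintype,
    ← Fin.sum_univ_eq_sum_range
      (fun k : ℕ => ∑' l : L.lattice, (((l : ℂ) + (k : ℂ) * t₀) ^ n)⁻¹) p]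
  refine Finset.sum_congr rfl fun k _ => tsum_congr fun l => ?_
  simp [cosetEquiv, cosetMap]

include hp ht hpt hL' in
/-- `G_n(L') = G_n(L) + Σ_{k=1}^{p-1} Σ_{ω∈L} (ω + k t₀)⁻ⁿ`. -/
theorem G_sup' {n : ℕ} (hn : 2 < n) :
    L'.G n = L.G n + ∑ k ∈ Finset.Ico 1 p, L.sumInvPow (-((k : ℂ) * t₀)) n := by
  rw [G_sup hp ht hpt L' hL' hn, Finset.range_eq_Ico, Finset.sum_eq_sum_Ico_succ_bot hp.pos]
  congr 1
  · simp [PeriodPair.G]
  · refine Finset.sum_congr rfl fun k _ => ?_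
    simp [PeriodPair.sumInvPow, sub_neg_eq_add]

include hp ht hpt hL' in
/-- **Analytic Vélu formula for `g₂`**:
`g₂(L + ℤ t₀) = (6 - 5p) g₂(L) + 60 Σ_{k=1}^{p-1} ℘_L(k t₀)²`. -/
theorem g₂_sup :
    L'.g₂ = (6 - 5 * (p : ℂ)) * L.g₂ + 60 * ∑ k ∈ Finset.Ico 1 p, ℘[L] ((k : ℂ) * t₀) ^ 2 := by
  have h1 : ∀ k ∈ Finset.Ico 1 p, L.sumInvPow (-((k : ℂ) * t₀)) 4 =
      ℘[L] ((k : ℂ) * t₀) ^ 2 - L.g₂ / 12 := by
    intro k hk
    rw [Finset.mem_Ico] at hk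
    have hnot : -((k : ℂ) * t₀) ∉ L.lattice := fun h =>
      natCast_mul_notMem hp ht hpt hk.1 hk.2 (by simpa using neg_mem h)
    rw [sumInvPow_four L hnot, L.weierstrassP_neg]
  rw [PeriodPair.g₂, G_sup' hp ht hpt L' hL' (by norm_num : 2 < 4), Finset.sum_congr rfl h1,
    Finset.sum_sub_distrib, Finset.sum_const, Nat.card_Ico, PeriodPair.g₂]
  have hp1 : ((p - 1 : ℕ) : ℂ) = (p : ℂ) - 1 := by
    rw [Nat.cast_sub hp.one_le]
    simp
  rw [nsmul_eq_mul, hp1]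
  ring

end Coset

end Fermat.Agent.MAZ.Unif91
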