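/-
MAZ programme (S15), brick F-D1 (uniformisation-lite), sub-brick U3 (helper91):
**the Weierstrass `℘`-function of a lattice takes every complex value** (off the lattice).

Route (no Liouville, no argument principle): the image `S` of `℘` on the complement of the lattice
is open (open mapping theorem on the connected open set `Lᶜ`; `℘` is not constant since it is
unbounded near `0`) and closed (reduce a sequence of arguments into the bounded fundamental
parallelogram, extract a convergent subsequence; the limit is not a lattice point since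
`‖℘‖ → ∞` there), hence `S = ℂ`.
-/
import Mathlib

set_option autoImplicit false

open Filter Topology Set
open scoped PeriodPair

noncomputable section

namespace Fermat.Agent.MAZ.Unif91

variable (L : PeriodPair)

/-- `‖℘(z)‖ → ∞` as `z → l`, `z ≠ l`, for a lattice point `l`. -/
theorem tendsto_norm_weierstrassP_atTop (l : L.lattice) :
    Tendsto (fun z => ‖℘[L] z‖) (𝓝[≠] (l : ℂ)) atTop := by
  have h1 : Tendsto (fun z : ℂ => z - (l : ℂ)) (𝓝[≠] (l : ℂ)) (𝓝[≠] 0) := by
    refine tendsto_nhdsWithin_iff.mpr ⟨?_, ?_⟩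
    · have : Tendsto (fun z : ℂ => z - (l : ℂ)) (𝓝 (l : ℂ)) (𝓝 ((l : ℂ) - l)) :=
        (continuous_id.sub continuous_const).tendsto _
      rw [sub_self] at this
      exact this.mono_left nhdsWithin_le_nhds
    · filter_upwards [self_mem_nhdsWithin] with z hz
      exact sub_ne_zero.mpr hz
  have h2 : Tendsto (fun z : ℂ => ‖(z - (l : ℂ))⁻¹‖) (𝓝[≠] (l : ℂ)) atTop :=
    tendsto_norm_cobounded_atTop.comp (tendsto_inv₀_nhdsNE_zero.comp h1)
  have h3 : Tendsto (fun z : ℂ => ‖1 / (z - (l : ℂ)) ^ 2‖) (𝓝[≠] (l : ℂ)) atTop := by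
    have := (tendsto_pow_atTop (α := ℝ) (n := 2) two_ne_zero).comp h2
    refine this.congr fun z => ?_
    simp [Function.comp]
  have hc : ContinuousAt (fun z => ℘[L - (l : ℂ)] z - 1 / (l : ℂ) ^ 2) (l : ℂ) :=
    ((L.analyticAt_weierstrassPExcept (l : ℂ)).continuousAt).sub continuousAt_const
  have h4 : Tendsto (fun z => -‖℘[L - (l : ℂ)] z - 1 / (l : ℂ) ^ 2‖) (𝓝[≠] (l : ℂ))
      (𝓝 (-‖℘[L - (l : ℂ)] (l : ℂ) - 1 / (l : ℂ) ^ 2‖)) :=
    (hc.norm.neg).tendsto.mono_left nhdsWithin_le_nhds
  refine tendsto_atTop_mono (fun z => ?_) (h3.atTop_add h4)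
  rw [← L.weierstrassPExcept_add l z]
  have e : ℘[L - (l : ℂ)] z + (1 / (z - (l : ℂ)) ^ 2 - 1 / (l : ℂ) ^ 2) =
      1 / (z - (l : ℂ)) ^ 2 + (℘[L - (l : ℂ)] z - 1 / (l : ℂ) ^ 2) := by ring
  rw [e]
  have := norm_add_le (1 / (z - (l : ℂ)) ^ 2 + (℘[L - (l : ℂ)] z - 1 / (l : ℂ) ^ 2))
    (-(℘[L - (l : ℂ)] z - 1 / (l : ℂ) ^ 2))
  rw [add_neg_cancel_right, norm_neg] at this
  linarith

/-- the lattice is countable. -/
theorem countable_lattice : (L.lattice : Set ℂ).Countable := by
  have : Countable L.lattice := L.latticeEquivProd.toEquiv.countable_iff.mpr inferInstance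
  exact Set.countable_coe_iff.mp this

/-- the complement of the lattice is preconnected. -/
theorem isPreconnected_compl_lattice : IsPreconnected ((L.lattice : Set ℂ)ᶜ) :=
  ((countable_lattice L).isConnected_compl_of_one_lt_rank
    (by simp [Complex.rank_real_complex])).isPreconnected

/-- `℘` is not constant on the complement of the lattice. -/
theorem not_const_weierstrassP : ¬ ∃ w, ∀ z ∈ ((L.lattice : Set ℂ)ᶜ), ℘[L] z = w := by
  rintro ⟨w, hw⟩
  have h := tendsto_norm_weierstrassP_atTop L 0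
  have h' : Tendsto (fun _ : ℂ => ‖w‖) (𝓝[≠] ((0 : L.lattice) : ℂ)) atTop := by
    refine h.congr' ?_
    have hopen : ((L.lattice : Set ℂ) \ {((0 : L.lattice) : ℂ)})ᶜ ∈ 𝓝 ((0 : L.lattice) : ℂ) :=
      L.compl_lattice_sdiff_singleton_mem_nhds _
    filter_upwards [nhdsWithin_le_nhds hopen, self_mem_nhdsWithin] with z hz hz0
    rw [hw z]
    intro hzL
    exact hz ⟨hzL, hz0⟩
  exact not_tendsto_const_atTop _ _ h'

/-- reduction modulo the lattice into the (bounded) fundamental parallelogram. -/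
theorem exists_reduced (z : ℂ) :
    ∃ z' ∈ ZSpan.fundamentalDomain L.basis, z - z' ∈ L.lattice := by
  refine ⟨ZSpan.fract L.basis z, ZSpan.fract_mem_fundamentalDomain _ _, ?_⟩
  rw [ZSpan.fract_apply, sub_sub_cancel, L.lattice_eq_span_range_basis]
  exact (ZSpan.floor L.basis z).2

/-- **`℘` takes every value**: for every `c` there is `z` off the lattice with `℘(z) = c`. -/
theorem exists_wp_eq (c : ℂ) : ∃ z : ℂ, z ∉ L.lattice ∧ ℘[L] z = c := by
  set U : Set ℂ := (L.lattice : Set ℂ)ᶜ with hU
  have hUo : IsOpen U := L.isClosed_lattice.isOpen_compl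
  set S : Set ℂ := ℘[L] '' U with hS
  -- `S` is open
  have hSo : IsOpen S := by
    rcases L.analyticOnNhd_weierstrassP.is_constant_or_isOpen (isPreconnected_compl_lattice L)
      with h | h
    · exact absurd h (not_const_weierstrassP L)
    · exact h U subset_rfl hUo
  -- `S` is closed
  have hSc : IsClosed S := by
    refine isClosed_of_closure_subset fun w hw => ?_
    obtain ⟨ws, hwsS, hwsw⟩ := mem_closure_iff_seq_limit.mp hw
    -- arguments in the fundamental domain
    have hz : ∀ n, ∃ z ∈ ZSpan.fundamentalDomain L.basis, z ∉ L.lattice ∧ ℘[L] z = ws n := by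
      intro n
      obtain ⟨z, hzU, hzw⟩ := hwsS n
      obtain ⟨z', hz'D, hz'L⟩ := exists_reduced L z
      refine ⟨z', hz'D, fun h => hzU ?_, ?_⟩
      · have : z = (z - z') + z' := by ring
        rw [this]
        exact add_mem hz'L h
      · have := L.weierstrassP_sub_coe z ⟨z - z', hz'L⟩
        simp only [sub_sub_cancel] at this
        rw [this, hzw]
    choose zs hzsD hzsL hzsw using hz
    have hK : IsCompact (closure (ZSpan.fundamentalDomain L.basis)) :=
      (ZSpan.fundamentalDomain_isBounded L.basis).isCompact_closure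
    obtain ⟨zstar, -, φ, hφ, hlim⟩ := hK.tendsto_subseq (fun n => subset_closure (hzsD n))
    have hwlim : Tendsto (fun n => ℘[L] (zs (φ n))) atTop (𝓝 w) := by
      have := hwsw.comp hφ.tendsto_atTop
      refine this.congr fun n => ?_
      simp [Function.comp, hzsw]
    by_cases hzL : zstar ∈ L.lattice
    · -- impossible: the norms tend to infinity
      exfalso
      have hne : Tendsto (zs ∘ φ) atTop (𝓝[≠] zstar) := by
        refine tendsto_nhdsWithin_iff.mpr ⟨hlim, Eventually.of_forall fun n h => ?_⟩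
        exact hzsL (φ n) (by rw [show zs (φ n) = zstar from h]; exact hzL)
      have h1 := (tendsto_norm_weierstrassP_atTop L ⟨zstar, hzL⟩).comp hne
      have h2 : Tendsto (fun n => ‖℘[L] (zs (φ n))‖) atTop (𝓝 ‖w‖) := hwlim.norm
      exact not_tendsto_atTop_of_tendsto_nhds h2 h1
    · have hcont : ContinuousAt ℘[L] zstar :=
        (L.differentiableOn_weierstrassP.differentiableAt
          (hUo.mem_nhds hzL)).continuousAt
      have h1 : Tendsto (fun n => ℘[L] (zs (φ n))) atTop (𝓝 (℘[L] zstar)) :=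
        hcont.tendsto.comp hlim
      exact ⟨zstar, hzL, tendsto_nhds_unique h1 hwlim⟩
  -- conclusion
  have hne : S.Nonempty := ⟨℘[L] (L.ω₁ / 2), L.ω₁ / 2, L.ω₁_div_two_notMem_lattice, rfl⟩
  have huniv : S = univ := IsClopen.eq_univ ⟨hSc, hSo⟩ hne
  have : c ∈ S := huniv ▸ mem_univ c
  obtain ⟨z, hz, hzc⟩ := this
  exact ⟨z, hz, hzc⟩

end Fermat.Agent.MAZ.Unif91
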