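/-
MAZ programme (S15), brick F-D1 (uniformisation-lite), sub-brick U6b (helper91):
**level structure**: a point `z` of exact order `p` in `ℂ/L` is `ω₂'/p` for a suitable positively
oriented basis `(ω₁', ω₂')` of the lattice `L`.

Route: `p z = a ω₁ + b ω₂` with `(a, b) ≢ (0, 0) mod p`; replace `(a, b)` by a congruent COPRIME pair
`(a', b')` (elementary: if `p ∤ a`, solve `b + p t ≡ 1 mod a`), complete the primitive vector
`a' ω₁ + b' ω₂` to a basis by Bézout, and fix the orientation by a sign.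
-/
import Mathlib

set_option autoImplicit false

open scoped PeriodPair

noncomputable section

namespace Fermat.Agent.MAZ.Unif91

/-- a pair of integers not both divisible by the prime `p` is congruent mod `p` to a coprime pair. -/
theorem exists_coprime_congr {p : ℕ} (hp : p.Prime) (a b : ℤ)
    (hab : ¬ ((p : ℤ) ∣ a ∧ (p : ℤ) ∣ b)) :
    ∃ s t : ℤ, IsCoprime (a + p * s) (b + p * t) := by
  have hpZ : Prime (p : ℤ) := Nat.prime_iff_prime_int.mp hp
  by_cases ha : (p : ℤ) ∣ a
  · have hb : ¬ (p : ℤ) ∣ b := fun hb => hab ⟨ha, hb⟩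
    have hc : IsCoprime b (p : ℤ) := by
      rw [isCoprime_comm]
      exact (Prime.coprime_iff_not_dvd hpZ).mpr hb
    obtain ⟨u, v, huv⟩ := hc
    -- `a' = 1 - u b (1 - a) = a + p (v (1 - a))`
    refine ⟨v * (1 - a), 0, ?_⟩
    have e : a + p * (v * (1 - a)) = 1 - u * b * (1 - a) := by linear_combination (1 - a) * huv
    rw [e, mul_zero, add_zero]
    exact ⟨1, u * (1 - a), by ring⟩
  · have hc : IsCoprime a (p : ℤ) := by
      rw [isCoprime_comm]
      exact (Prime.coprime_iff_not_dvd hpZ).mpr ha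
    obtain ⟨u, v, huv⟩ := hc
    refine ⟨0, v * (1 - b), ?_⟩
    have e : b + p * (v * (1 - b)) = 1 - u * a * (1 - b) := by linear_combination (1 - b) * huv
    rw [e, mul_zero, add_zero]
    exact ⟨u * (1 - b), 1, by ring⟩

variable (L : PeriodPair)

/-- unimodular change of basis: the pair `(y ω₁ - x ω₂, a ω₁ + b ω₂)`, `x a + y b = 1`. -/
def unimodPair (a b x y : ℤ) (h : x * a + y * b = 1) : PeriodPair where
  ω₁ := y * L.ω₁ - x * L.ω₂
  ω₂ := a * L.ω₁ + b * L.ω₂
  indep := by
    have hi := LinearIndependent.pair_iff.mp L.indep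
    refine LinearIndependent.pair_iff.mpr fun s t hst => ?_
    have hR : ((x : ℝ) * a + y * b) = 1 := by exact_mod_cast h
    have key := hi (s * y + t * a) (-(s * x) + t * b) (by
      simp only [Complex.real_smul, Complex.ofReal_add, Complex.ofReal_mul, Complex.ofReal_neg,
        Complex.ofReal_intCast] at hst ⊢
      linear_combination hst)
    obtain ⟨h1, h2⟩ := key
    have hs : s = 0 := by
      have : s * ((x : ℝ) * a + y * b) = 0 := by linear_combination (b : ℝ) * h1 - (a : ℝ) * h2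
      rwa [hR, mul_one] at this
    have ht : t = 0 := by
      have : t * ((x : ℝ) * a + y * b) = 0 := by
        linear_combination (x : ℝ) * h1 + (y : ℝ) * h2
      rw [hR, mul_one] at this
      linarith
    exact ⟨hs, ht⟩

@[simp] theorem unimodPair_ω₁ (a b x y : ℤ) (h : x * a + y * b = 1) :
    (unimodPair L a b x y h).ω₁ = y * L.ω₁ - x * L.ω₂ := rfl

@[simp] theorem unimodPair_ω₂ (a b x y : ℤ) (h : x * a + y * b = 1) :
    (unimodPair L a b x y h).ω₂ = a * L.ω₁ + b * L.ω₂ := rfl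

theorem unimodPair_lattice (a b x y : ℤ) (h : x * a + y * b = 1) :
    (unimodPair L a b x y h).lattice = L.lattice := by
  have hC : ((x : ℂ) * a + y * b) = 1 := by exact_mod_cast h
  apply le_antisymm
  · rw [PeriodPair.lattice, Submodule.span_le]
    rintro w (rfl | rfl)
    · exact PeriodPair.mem_lattice.mpr ⟨y, -x, by simp; ring⟩
    · exact PeriodPair.mem_lattice.mpr ⟨a, b, by simp⟩
  · rw [PeriodPair.lattice, Submodule.span_le]
    rintro w (rfl | rfl)
    · refine PeriodPair.mem_lattice.mpr ⟨b, x, ?_⟩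
      simp only [unimodPair_ω₁, unimodPair_ω₂]
      linear_combination L.ω₁ * hC
    · refine PeriodPair.mem_lattice.mpr ⟨-a, y, ?_⟩
      simp only [unimodPair_ω₁, unimodPair_ω₂, Int.cast_neg]
      linear_combination L.ω₂ * hC

/-- the pair `(-ω₁, ω₂)`. -/
def negPair : PeriodPair where
  ω₁ := -L.ω₁
  ω₂ := L.ω₂
  indep := by
    have hi := LinearIndependent.pair_iff.mp L.indep
    refine LinearIndependent.pair_iff.mpr fun s t hst => ?_
    have := hi (-s) t (by simpa using hst)
    exact ⟨neg_eq_zero.mp this.1, this.2⟩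

theorem negPair_lattice : (negPair L).lattice = L.lattice := by
  apply le_antisymm
  · rw [PeriodPair.lattice, Submodule.span_le]
    rintro w (rfl | rfl)
    · exact neg_mem L.ω₁_mem_lattice
    · exact L.ω₂_mem_lattice
  · rw [PeriodPair.lattice, Submodule.span_le]
    rintro w (rfl | rfl)
    · have : L.ω₁ = -(negPair L).ω₁ := by simp [negPair]
      rw [this]
      exact neg_mem (negPair L).ω₁_mem_lattice
    · exact (negPair L).ω₂_mem_lattice

theorem ω₂_ne_zero : L.ω₂ ≠ 0 := by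
  intro h
  have := (LinearIndependent.pair_iff.mp L.indep) 0 1 (by simp [h])
  exact one_ne_zero this.2

theorem im_div_ne_zero : (L.ω₁ / L.ω₂).im ≠ 0 := by
  intro h
  have h2 := ω₂_ne_zero L
  have hr : L.ω₁ / L.ω₂ = ((L.ω₁ / L.ω₂).re : ℂ) := by
    apply Complex.ext <;> simp [h]
  have := (LinearIndependent.pair_iff.mp L.indep) 1 (-(L.ω₁ / L.ω₂).re) (by
    simp only [Complex.real_smul, Complex.ofReal_one, one_mul, Complex.ofReal_neg, neg_mul]
    rw [← hr]
    field_simp
    ring)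
  exact one_ne_zero this.1

/-- orientation: up to the sign of `ω₁` the ratio `ω₁/ω₂` lies in the upper half plane. -/
theorem exists_oriented : ∃ L' : PeriodPair, L'.lattice = L.lattice ∧ L'.ω₂ = L.ω₂ ∧
    0 < (L'.ω₁ / L'.ω₂).im := by
  rcases lt_or_gt_of_ne (im_div_ne_zero L) with h | h
  · refine ⟨negPair L, negPair_lattice L, rfl, ?_⟩
    have : (negPair L).ω₁ / (negPair L).ω₂ = -(L.ω₁ / L.ω₂) := by
      simp [negPair, neg_div]
    rw [this, Complex.neg_im]
    linarith
  · exact ⟨L, rfl, rfl, h⟩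

/-- **Level structure.** If `z ∉ L` and `p z ∈ L` (`p` prime), there is a positively oriented
basis `(ω₁', ω₂')` of `L` with `ω₂'/p ≡ z mod L`. -/
theorem exists_basis_of_order {p : ℕ} (hp : p.Prime) {z : ℂ} (hz : z ∉ L.lattice)
    (hpz : (p : ℂ) * z ∈ L.lattice) :
    ∃ L' : PeriodPair, L'.lattice = L.lattice ∧ L'.ω₂ / p - z ∈ L.lattice ∧
      0 < (L'.ω₁ / L'.ω₂).im := by
  have hp0 : (p : ℂ) ≠ 0 := Nat.cast_ne_zero.mpr hp.ne_zero
  obtain ⟨a, b, hab⟩ := PeriodPair.mem_lattice.mp hpz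
  have hnd : ¬ ((p : ℤ) ∣ a ∧ (p : ℤ) ∣ b) := by
    rintro ⟨⟨a₀, rfl⟩, ⟨b₀, rfl⟩⟩
    apply hz
    refine PeriodPair.mem_lattice.mpr ⟨a₀, b₀, ?_⟩
    apply mul_left_cancel₀ hp0
    rw [← hab]
    push_cast
    ring
  obtain ⟨s, t, hc⟩ := exists_coprime_congr hp a b hnd
  obtain ⟨x, y, hxy⟩ := hc
  obtain ⟨L', hL', hω₂, him⟩ := exists_oriented (unimodPair L (a + p * s) (b + p * t) x y hxy)
  refine ⟨L', hL'.trans (unimodPair_lattice L _ _ x y hxy), ?_, him⟩
  rw [hω₂, unimodPair_ω₂]
  refine PeriodPair.mem_lattice.mpr ⟨s, t, ?_⟩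
  have hz' : z = (a * L.ω₁ + b * L.ω₂) / p := by
    rw [hab]
    field_simp
  rw [hz']
  push_cast
  field_simp
  ring

end Fermat.Agent.MAZ.Unif91
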