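/-
MAZ programme (S15), brick F-D1 (uniformisation-lite), sub-brick U6c-lattice (helper91):
**re-basing a lattice `u·(ℤτ+ℤ)` at a point of exact order `p`**: there are `τ'`, `u'` with
`u'·(ℤτ'+ℤ) = u·(ℤτ+ℤ)`, `u'/p ≡ z` modulo the lattice, and `j(τ') = j(τ)`.
-/
import Fermat.Agent.MAZ.Unif91.Level
import Fermat.Agent.X0.LatticeEis
import Fermat.Agent.X0.JBasic

set_option autoImplicit false

open UpperHalfPlane
open Fermat.Agent.X0 Fermat.Agent.X0.LatticeEis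
open scoped MatrixGroups

noncomputable section

namespace Fermat.Agent.MAZ.Unif91

/-- the point `ω₁/ω₂` of the upper half plane of a positively oriented period pair. -/
def tauOf (L : PeriodPair) (h : 0 < (L.ω₁ / L.ω₂).im) : ℍ := ⟨L.ω₁ / L.ω₂, h⟩

@[simp] theorem coe_tauOf (L : PeriodPair) (h : 0 < (L.ω₁ / L.ω₂).im) :
    ((tauOf L h : ℍ) : ℂ) = L.ω₁ / L.ω₂ := rfl

/-- a positively oriented period pair is `ω₂ • (τ, 1)`, `τ = ω₁/ω₂`. -/
theorem lattice_scalePair_tauOf (L : PeriodPair) (h : 0 < (L.ω₁ / L.ω₂).im) :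
    (scalePair L.ω₂ (ω₂_ne_zero L) (pairOfUHP (tauOf L h))).lattice = L.lattice := by
  have h2 := ω₂_ne_zero L
  have e1 : (scalePair L.ω₂ h2 (pairOfUHP (tauOf L h))).ω₁ = L.ω₁ := by
    simp only [scalePair_ω₁, pairOfUHP_ω₁, coe_tauOf]
    field_simp
  have e2 : (scalePair L.ω₂ h2 (pairOfUHP (tauOf L h))).ω₂ = L.ω₂ := by
    simp only [scalePair_ω₂, pairOfUHP_ω₂, mul_one]
  unfold PeriodPair.lattice
  rw [e1, e2]

/-- homothetic lattices `u'·(ℤτ'+ℤ) = u·(ℤτ+ℤ)` have the same `j`-invariant. -/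
theorem jFun_eq_of_lattice_eq (τ τ' : ℍ) (u u' : ℂ) (hu : u ≠ 0) (hu' : u' ≠ 0)
    (h : (scalePair u' hu' (pairOfUHP τ')).lattice = (scalePair u hu (pairOfUHP τ)).lattice) :
    jFun τ' = jFun τ := by
  have hc : u'⁻¹ * u ≠ 0 := mul_ne_zero (inv_ne_zero hu') hu
  have hlat : (pairOfUHP τ').lattice = (scalePair (u'⁻¹ * u) hc (pairOfUHP τ)).lattice := by
    ext x
    constructor
    · intro hx
      have h1 : u' * x ∈ (scalePair u hu (pairOfUHP τ)).lattice :=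
        h ▸ mul_mem_lattice_scalePair u' hu' _ hx
      obtain ⟨l, hl, hxl⟩ := mem_lattice_scalePair.mp h1
      refine mem_lattice_scalePair.mpr ⟨l, hl, ?_⟩
      have : x = u'⁻¹ * (u' * x) := by field_simp
      rw [this, hxl]
      ring
    · intro hx
      obtain ⟨l, hl, hxl⟩ := mem_lattice_scalePair.mp hx
      have h1 : u * l ∈ (scalePair u' hu' (pairOfUHP τ')).lattice :=
        h ▸ mul_mem_lattice_scalePair u hu _ hl
      obtain ⟨l', hl', hxl'⟩ := mem_lattice_scalePair.mp h1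
      have : x = l' := by
        rw [hxl, mul_assoc, hxl']
        field_simp
      rwa [this]
  obtain ⟨γ, hγ⟩ := exists_SL2_smul_eq_of_lattice_eq τ' τ (u'⁻¹ * u) hc hlat
  rw [← hγ, jFun_smul]

/-- **Re-basing at a point of exact order `p`.** -/
theorem exists_tau_of_order (τ : ℍ) (u : ℂ) (hu : u ≠ 0) {p : ℕ} (hp : p.Prime) {z : ℂ}
    (hz : z ∉ (scalePair u hu (pairOfUHP τ)).lattice)
    (hpz : (p : ℂ) * z ∈ (scalePair u hu (pairOfUHP τ)).lattice) :
    ∃ (τ' : ℍ) (u' : ℂ) (hu' : u' ≠ 0),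
      (scalePair u' hu' (pairOfUHP τ')).lattice = (scalePair u hu (pairOfUHP τ)).lattice ∧
      u' / p - z ∈ (scalePair u hu (pairOfUHP τ)).lattice ∧ jFun τ' = jFun τ := by
  obtain ⟨L', hL', hω, him⟩ := exists_basis_of_order (scalePair u hu (pairOfUHP τ)) hp hz hpz
  have hlat := (lattice_scalePair_tauOf L' him).trans hL'
  exact ⟨tauOf L' him, L'.ω₂, ω₂_ne_zero L', hlat, hω,
    jFun_eq_of_lattice_eq τ (tauOf L' him) u L'.ω₂ hu (ω₂_ne_zero L') hlat⟩

end Fermat.Agent.MAZ.Unif91
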