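/-
MAZ programme (S15), moduli side, brick EFV part 2 (helper91): **analytic Vélu formula for `g₃`**.
For lattices `L ⊂ L' = L + ℤ t₀`, `t₀ ∉ L`, `p t₀ ∈ L` (`p` prime):

* `sumInvPow_six` : `Σ_{ω ∈ L} (ω - z)⁻⁶ = ℘(z)³ - (3/20) g₂ ℘(z) - g₃/10` (`= ℘''''(z)/120`);
* `g₃_sup` : `g₃(L') = (15 - 14p) g₃(L) - 21 g₂(L) Σ_k ℘_L(k t₀) + 140 Σ_k ℘_L(k t₀)³`,
  the sums over `1 ≤ k ≤ p - 1`.

Together with `g₂_sup` this expresses `g₂(L')`, `g₃(L')`, hence `Δ(L')` and `j(L')`, as polynomial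
expressions in `g₂(L)`, `g₃(L)` and the power sums of the `x_k = ℘_L(k t₀)`.
-/
import Fermat.Agent.MAZ.Unif91.VeluG2

set_option autoImplicit false

open Filter Topology
open scoped PeriodPair Nat

noncomputable section

namespace Fermat.Agent.MAZ.Unif91

variable (L : PeriodPair)

/-- the third derivative of `℘'` off the lattice. -/
theorem iteratedDeriv_three_dwp {z : ℂ} (hz : z ∉ L.lattice) :
    iteratedDeriv 3 ℘'[L] z = 120 * ℘[L] z ^ 3 - 18 * L.g₂ * ℘[L] z - 12 * L.g₃ := by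
  have hUo : IsOpen ((L.lattice : Set ℂ)ᶜ) := L.isClosed_lattice.isOpen_compl
  have hU : (L.lattice : Set ℂ)ᶜ ∈ 𝓝 z := hUo.mem_nhds hz
  -- first derivative
  have e1 : deriv ℘'[L] =ᶠ[𝓝 z] fun w => 6 * ℘[L] w ^ 2 - L.g₂ / 2 := by
    filter_upwards [hU] with w hw
    exact (Fermat.Agent.MAZ.Unif18.hasDerivAt_dwp L hw).deriv
  -- second derivative
  have hd2 : ∀ w ∉ L.lattice,
      HasDerivAt (fun w => 6 * ℘[L] w ^ 2 - L.g₂ / 2) (12 * ℘[L] w * ℘'[L] w) w := by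
    intro w hw
    have h := Fermat.Agent.MAZ.Unif18.hasDerivAt_wp L hw
    have h2 : HasDerivAt (fun y => 6 * (℘[L] y * ℘[L] y) - L.g₂ / 2)
        (6 * (℘'[L] w * ℘[L] w + ℘[L] w * ℘'[L] w)) w :=
      ((h.mul h).const_mul (6 : ℂ)).sub_const (L.g₂ / 2)
    have hf : (fun w => 6 * ℘[L] w ^ 2 - L.g₂ / 2) =
        fun y => 6 * (℘[L] y * ℘[L] y) - L.g₂ / 2 := by
      funext y
      ring
    rw [hf]
    exact h2.congr_deriv (by ring)
  have e2 : deriv (fun w => 6 * ℘[L] w ^ 2 - L.g₂ / 2) =ᶠ[𝓝 z]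
      fun w => 12 * ℘[L] w * ℘'[L] w := by
    filter_upwards [hU] with w hw
    exact (hd2 w hw).deriv
  -- third derivative
  have hd3 : HasDerivAt (fun w => 12 * ℘[L] w * ℘'[L] w)
      (12 * ℘'[L] z * ℘'[L] z + 12 * ℘[L] z * (6 * ℘[L] z ^ 2 - L.g₂ / 2)) z := by
    have h := Fermat.Agent.MAZ.Unif18.hasDerivAt_wp L hz
    have h' := Fermat.Agent.MAZ.Unif18.hasDerivAt_dwp L hz
    exact (h.const_mul (12 : ℂ)).mul h'
  rw [iteratedDeriv_succ', e1.iteratedDeriv_eq 2, iteratedDeriv_succ', e2.iteratedDeriv_eq 1,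
    iteratedDeriv_one, hd3.deriv]
  have hsq := L.derivWeierstrassP_sq z hz
  linear_combination 12 * hsq

/-- `Σ_{ω ∈ L} (ω - z)⁻⁶ = ℘(z)³ - (3/20) g₂ ℘(z) - g₃/10` off the lattice. -/
theorem sumInvPow_six {z : ℂ} (hz : z ∉ L.lattice) :
    L.sumInvPow z 6 = ℘[L] z ^ 3 - 3 / 20 * L.g₂ * ℘[L] z - L.g₃ / 10 := by
  have h1 : iteratedDeriv 3 ℘'[L] z = (3 + 2)! * L.sumInvPow z (3 + 3) := by
    have := L.iteratedDeriv_derivWeierstrassPExcept_self z (n := 3)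
    rwa [L.derivWeierstrassPExcept_of_notMem z hz] at this
  have h2 := iteratedDeriv_three_dwp L hz
  have h3 : ((3 + 2)! : ℂ) = 120 := by
    norm_num [Nat.factorial]
  rw [h3] at h1
  have h4 : 120 * L.sumInvPow z 6 = 120 * ℘[L] z ^ 3 - 18 * L.g₂ * ℘[L] z - 12 * L.g₃ :=
    h1.symm.trans h2
  linear_combination (1 / 120 : ℂ) * h4

section Coset

variable {L} {p : ℕ} (hp : p.Prime) {t₀ : ℂ} (ht : t₀ ∉ L.lattice)
  (hpt : (p : ℂ) * t₀ ∈ L.lattice)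
  (L' : PeriodPair) (hL' : L'.lattice = L.lattice ⊔ Submodule.span ℤ {t₀})

include hp ht hpt hL' in
/-- **Analytic Vélu formula for `g₃`**. -/
theorem g₃_sup :
    L'.g₃ = (15 - 14 * (p : ℂ)) * L.g₃ - 21 * L.g₂ * ∑ k ∈ Finset.Ico 1 p, ℘[L] ((k : ℂ) * t₀)
      + 140 * ∑ k ∈ Finset.Ico 1 p, ℘[L] ((k : ℂ) * t₀) ^ 3 := by
  have h1 : ∀ k ∈ Finset.Ico 1 p, L.sumInvPow (-((k : ℂ) * t₀)) 6 =
      ℘[L] ((k : ℂ) * t₀) ^ 3 - 3 / 20 * L.g₂ * ℘[L] ((k : ℂ) * t₀) - L.g₃ / 10 := by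
    intro k hk
    rw [Finset.mem_Ico] at hk
    have hnot : -((k : ℂ) * t₀) ∉ L.lattice := fun h =>
      natCast_mul_notMem hp ht hpt hk.1 hk.2 (by simpa using neg_mem h)
    rw [sumInvPow_six L hnot, L.weierstrassP_neg]
  rw [PeriodPair.g₃, G_sup' hp ht hpt L' hL' (by norm_num : 2 < 6), Finset.sum_congr rfl h1,
    Finset.sum_sub_distrib, Finset.sum_sub_distrib, Finset.sum_const, Nat.card_Ico,
    ← Finset.mul_sum, PeriodPair.g₃]
  have hp1 : ((p - 1 : ℕ) : ℂ) = (p : ℂ) - 1 := by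
    rw [Nat.cast_sub hp.one_le]
    simp
  rw [nsmul_eq_mul, hp1]
  ring

end Coset

end Fermat.Agent.MAZ.Unif91
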